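/-
S12 programme, brick VELU-Q (helper51), the discriminant facts:

for an elliptic curve `W/ℂ` and a point `Q` of odd prime order `p`
  `Δ(veluCurve W Q p) ≠ 0`,  `Δ(veluCurve W Q p) · ∏_{0<k<p} ψ₂(k•Q)⁴ = Δ(W)^p`
(`velu_C_delta`, from the uniformisation `Unif18.exists_tau` and `VeluC51.Curve`), and the same over
`ℚbar` for a curve `V/ℚ` (`velu_Q_delta`, by descent along `ℚbar → ℂ`).
-/
import Fermat.Agent.S12P.VeluC51.Curve
import Fermat.Agent.S12P.VeluQ51.Descent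

set_option autoImplicit false
set_option linter.style.haveILetI false

open scoped PeriodPair

noncomputable section

namespace Fermat.Agent.S12P.VeluQ51

open PeriodPair WeierstrassCurve UpperHalfPlane
open Fermat.Agent.MAZ Fermat.Agent.MAZ.Unif18 Fermat.Agent.MAZ.EF86 Fermat.Agent.X0
open Fermat.Agent.X0.LatticeEis
open scoped WeierstrassCurve.Affine
open Fermat.Agent.S05.Transport Fermat.Agent.S12P.VeluDef51 Fermat.Agent.S12P.VeluC51

/-- The standard cyclic superlattice attached to the uniformisation of `(W, Q)`: with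
`L = u(ℤτ + ℤ)` and `L' = (u/p)(ℤ pτ + ℤ)`, `L'` is the cyclic superlattice of `L` generated by
`u/p`. -/
theorem isCyclicSup_std {p : ℕ} (hp : p.Prime) (τ : ℍ) {u : ℂ} (hu : u ≠ 0) :
    IsCyclicSup (scalePair u hu (pairOfUHP τ))
      (scalePair (u / p) (div_ne_zero hu (Nat.cast_ne_zero.mpr hp.ne_zero))
        (pairOfUHP (natMulUHP p hp.pos τ))) p (u / p) := by
  have hp0 : (p : ℂ) ≠ 0 := Nat.cast_ne_zero.mpr hp.ne_zero
  set L := scalePair u hu (pairOfUHP τ) with hL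
  set L' := scalePair (u / p) (div_ne_zero hu hp0) (pairOfUHP (natMulUHP p hp.pos τ)) with hL'
  have hω₂ : L'.ω₂ = u / p := by
    simp only [hL', scalePair_ω₂, pairOfUHP_ω₂, mul_one]
  have h₁ : L'.ω₁ = L.ω₁ := by
    simp only [hL', hL, scalePair_ω₁, pairOfUHP_ω₁, coe_natMulUHP]
    field_simp
  have h₂ : L.ω₂ = (p : ℂ) * L'.ω₂ := by
    rw [hω₂]
    simp only [hL, scalePair_ω₂, pairOfUHP_ω₂, mul_one]
    field_simp
  have hcyc := isCyclicSup_of_basis L L' hp.pos h₁ h₂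
  rwa [hω₂] at hcyc

/-- **VELU over `ℂ`, discriminants.** -/
theorem velu_C_delta (W : WeierstrassCurve ℂ) [W.IsElliptic] {p : ℕ} (hp : p.Prime) {m : ℕ}
    (hpm : p = 2 * m + 1) (Q : W.toAffine.Point) (hQ : addOrderOf Q = p) :
    (veluCurve W Q p).Δ ≠ 0 ∧ (veluCurve W Q p).Δ * ModInv.psiProd W Q p = W.Δ ^ p := by
  obtain ⟨τ, u, hu, C, h, -, hpt⟩ := exists_tau W hp Q hQ
  have hcyc := isCyclicSup_std hp τ hu
  subst hpt
  exact ⟨veluCurve_Δ_ne_zero h hcyc hp, veluCurve_Δ_mul_psiProd h hcyc hp hpm⟩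

/-- **VELU over `ℚbar`, discriminants**: for `V/ℚ` elliptic and `Q ∈ V(ℚbar)` of odd prime order `p`,
the Velu curve is non-singular and `Δ' ∏ ψ₂(k•Q)⁴ = Δ^p`. -/
theorem velu_Q_delta (V : WeierstrassCurve ℚ) (hΔ : V.Δ ≠ 0) {p : ℕ} (hp : p.Prime) {m : ℕ}
    (hpm : p = 2 * m + 1) (Q : (V⁄Kbar).Point) (hQ : addOrderOf Q = p) :
    (veluCurve (V.baseChange Kbar) Q p).Δ ≠ 0 ∧
      (veluCurve (V.baseChange Kbar) Q p).Δ * ModInv.psiProd (V.baseChange Kbar) Q p =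
        (V.baseChange Kbar).Δ ^ p := by
  haveI := isElliptic_baseChange_C V hΔ
  have hQC : addOrderOf (pointToC V Q) = p := by rw [addOrderOf_pointToC, hQ]
  obtain ⟨h1, h2⟩ := velu_C_delta (V.baseChange ℂ) hp hpm (pointToC V Q) hQC
  exact ⟨Δ_ne_zero_of_C V Q p h1, Δ_mul_psiProd_of_C V Q p h2⟩

end Fermat.Agent.S12P.VeluQ51
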