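/-
S12 programme, brick VELU-Q (helper51), part 1: DESCENT of the Velu statements from `ℂ` to `ℚbar`
along `ι = iotaAlg : ℚbar →ₐ[ℚ] ℂ`.  For `V : WeierstrassCurve ℚ`, `E = V.baseChange ℚbar`,
`Q, R ∈ E(ℚbar)`:

* `veluCurve_pointToC` : `veluCurve E_ℂ (ι Q) p = (veluCurve E Q p).map ι`;
* `Δ_ne_zero_of_C`, `Δ_mul_psiProd_of_C` : the `Δ`-statements descend;
* `exists_point_of_C` : nonsingularity and the exact order of `(veluX R, veluY R)` descend
  (via the injective homomorphism `toC V' : V'(ℚbar) →+ (V'.map ι)(ℂ)` for an ARBITRARY curve `V'`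
  over `ℚbar`, obtained from Mathlib's `Point.map` with a local `Algebra ℚbar ℂ` instance).
-/
import Fermat.Agent.MAZ.Unif18.BridgeQbar
import Fermat.Agent.S12P.VeluDef61.Equivariance

set_option autoImplicit false
set_option linter.style.haveILetI false

open WeierstrassCurve WeierstrassCurve.Affine

noncomputable section

namespace Fermat.Agent.S12P.VeluQ51

open Fermat.Agent.MAZ Fermat.Agent.MAZ.Unif18 Fermat.Agent.X0
open Fermat.Agent.S12P.VeluDef51 Fermat.Agent.S12P.VeluDef61

/-! ### Points of an arbitrary curve over `ℚbar`, mapped to `ℂ` -/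

/-- The map `V'(ℚbar) → (V'.map ι)(ℂ)` for an arbitrary Weierstrass curve over `ℚbar`. -/
def toC (V' : WeierstrassCurve Kbar) :
    V'.toAffine.Point →+ (V'.map (iotaAlg : Kbar →+* ℂ)).toAffine.Point :=
  letI : Algebra Kbar ℂ := (iotaAlg : Kbar →+* ℂ).toAlgebra
  (Affine.Point.map (W' := V'.toAffine) (Algebra.ofId Kbar ℂ) : (V'⁄Kbar).Point →+ (V'⁄ℂ).Point)

theorem toC_injective (V' : WeierstrassCurve Kbar) : Function.Injective (toC V') := by
  letI : Algebra Kbar ℂ := (iotaAlg : Kbar →+* ℂ).toAlgebra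
  exact Affine.Point.map_injective (W' := V'.toAffine) (Algebra.ofId Kbar ℂ)

theorem nonsingular_map_iff (V' : WeierstrassCurve Kbar) (x y : Kbar) :
    (V'.map (iotaAlg : Kbar →+* ℂ)).toAffine.Nonsingular (iotaAlg x) (iotaAlg y) ↔
      V'.toAffine.Nonsingular x y :=
  Affine.map_nonsingular (W := V'.toAffine) (RingHom.injective (iotaAlg : Kbar →+* ℂ)) x y

theorem toC_some (V' : WeierstrassCurve Kbar) {x y : Kbar} (h : V'.toAffine.Nonsingular x y) :
    toC V' (.some x y h) =
      .some (iotaAlg x) (iotaAlg y) ((nonsingular_map_iff V' x y).mpr h) := rfl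

theorem addOrderOf_toC (V' : WeierstrassCurve Kbar) (P : V'.toAffine.Point) :
    addOrderOf (toC V' P) = addOrderOf P :=
  addOrderOf_injective (toC V') (toC_injective V') P

/-- Orders of points with the same coordinates on equal curves agree. -/
theorem addOrderOf_some_congr {W₁ W₂ : WeierstrassCurve ℂ} (e : W₁ = W₂) {x y : ℂ}
    (h₁ : W₁.toAffine.Nonsingular x y) (h₂ : W₂.toAffine.Nonsingular x y) :
    addOrderOf (Affine.Point.some x y h₁) = addOrderOf (Affine.Point.some x y h₂) := by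
  subst e
  rfl

/-! ### The Velu data of a curve over `ℚ` -/

variable (V : WeierstrassCurve ℚ)

theorem veluCurve_pointToC (Q : (V⁄Kbar).Point) (p : ℕ) :
    veluCurve (V.baseChange ℂ) (pointToC V Q) p =
      (veluCurve (V.baseChange Kbar) Q p).map (iotaAlg : Kbar →+* ℂ) :=
  veluCurve_map (W₀ := V) iotaAlg Q p

theorem veluX_pointToC (Q R : (V⁄Kbar).Point) (p : ℕ) :
    veluX (V.baseChange ℂ) (pointToC V Q) p (pointToC V R) =
      iotaAlg (veluX (V.baseChange Kbar) Q p R) :=
  veluX_map (W₀ := V) iotaAlg Q p R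

theorem veluY_pointToC (Q R : (V⁄Kbar).Point) (p : ℕ) :
    veluY (V.baseChange ℂ) (pointToC V Q) p (pointToC V R) =
      iotaAlg (veluY (V.baseChange Kbar) Q p R) :=
  veluY_map (W₀ := V) iotaAlg Q p R

theorem psiProd_pointToC (Q : (V⁄Kbar).Point) (p : ℕ) :
    ModInv.psiProd (V.baseChange ℂ) (pointToC V Q) p =
      iotaAlg (ModInv.psiProd (V.baseChange Kbar) Q p) := by
  simp only [ModInv.psiProd, map_prod, map_pow]
  refine Finset.prod_congr rfl fun k _ => ?_
  rw [← map_nsmul]
  exact congrArg (· ^ 4) (psi2_map (W₀ := V) iotaAlg (k • Q))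

/-- `Δ(veluCurve) ≠ 0` descends. -/
theorem Δ_ne_zero_of_C (Q : (V⁄Kbar).Point) (p : ℕ)
    (h : (veluCurve (V.baseChange ℂ) (pointToC V Q) p).Δ ≠ 0) :
    (veluCurve (V.baseChange Kbar) Q p).Δ ≠ 0 := by
  rw [veluCurve_pointToC, WeierstrassCurve.map_Δ] at h
  intro h0
  rw [h0, map_zero] at h
  exact h rfl

/-- `Δ(veluCurve) · psiProd = Δ^p` descends. -/
theorem Δ_mul_psiProd_of_C (Q : (V⁄Kbar).Point) (p : ℕ)
    (h : (veluCurve (V.baseChange ℂ) (pointToC V Q) p).Δ *
      ModInv.psiProd (V.baseChange ℂ) (pointToC V Q) p = (V.baseChange ℂ).Δ ^ p) :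
    (veluCurve (V.baseChange Kbar) Q p).Δ * ModInv.psiProd (V.baseChange Kbar) Q p =
      (V.baseChange Kbar).Δ ^ p := by
  rw [veluCurve_pointToC, WeierstrassCurve.map_Δ, psiProd_pointToC, Δ_baseChange_C] at h
  apply iotaAlg.injective
  rw [map_mul, map_pow]
  exact h

/-- Nonsingularity and the exact order of the Velu image point descend. -/
theorem exists_point_of_C (Q R : (V⁄Kbar).Point) (p : ℕ)
    (h : ∃ hns : (veluCurve (V.baseChange ℂ) (pointToC V Q) p).toAffine.Nonsingular
        (veluX (V.baseChange ℂ) (pointToC V Q) p (pointToC V R))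
        (veluY (V.baseChange ℂ) (pointToC V Q) p (pointToC V R)),
      addOrderOf (Affine.Point.some _ _ hns) = p) :
    ∃ hns : (veluCurve (V.baseChange Kbar) Q p).toAffine.Nonsingular
        (veluX (V.baseChange Kbar) Q p R) (veluY (V.baseChange Kbar) Q p R),
      addOrderOf (Affine.Point.some _ _ hns) = p := by
  obtain ⟨hns, hord⟩ := h
  have hns' : ((veluCurve (V.baseChange Kbar) Q p).map (iotaAlg : Kbar →+* ℂ)).toAffine.Nonsingular
      (iotaAlg (veluX (V.baseChange Kbar) Q p R)) (iotaAlg (veluY (V.baseChange Kbar) Q p R)) := by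
    rw [← veluCurve_pointToC, ← veluX_pointToC, ← veluY_pointToC]
    exact hns
  have hnsK := (nonsingular_map_iff _ _ _).mp hns'
  refine ⟨hnsK, ?_⟩
  rw [← addOrderOf_toC, toC_some]
  refine Eq.trans ?_ hord
  have hns'' : (veluCurve (V.baseChange ℂ) (pointToC V Q) p).toAffine.Nonsingular
      (iotaAlg (veluX (V.baseChange Kbar) Q p R)) (iotaAlg (veluY (V.baseChange Kbar) Q p R)) := by
    rw [← veluX_pointToC, ← veluY_pointToC]; exact hns
  refine (addOrderOf_some_congr (veluCurve_pointToC V Q p).symm hns' hns'').trans ?_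
  congr 1
  simp only [veluX_pointToC, veluY_pointToC]

end Fermat.Agent.S12P.VeluQ51
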