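/-
S12 programme, brick VELU-C part 2 / VELU-Q (helper51): **the image point of Velu's isogeny**.

Over `ℂ`: if `curve L = C • W`, `L' = L + ℤ t₀` (`IsCyclicSup L L' p t₀`, `p` prime),
`Q = pointEquiv h (toPoint L t₀)` and `R = pointEquiv h (toPoint L z)` with `z ∉ L'`, then

  `veluX W Q p R = u² ℘[L'] z + r`,  `veluY W Q p R = u³ ℘'[L'] z / 2 + u² s ℘[L'] z + t`,

i.e. `(veluX, veluY)(R)` are the coordinates of `pointEquiv h' (toPoint L' z)` on the Velu curve
(`h' : curve L' = C • veluCurve W Q p` from `VeluC51.curve_sup_eq`).  Hence for `R ∉ ⟨Q⟩` with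
`p • R = 0` the pair `(veluX, veluY)(R)` is a nonsingular point of order `p` of `veluCurve W Q p`
(`velu_C_points`), and the same over `ℚbar` for a curve over `ℚ` (`velu_Q_points`).
-/
import Fermat.Agent.S12P.VeluC51.Curve
import Fermat.Agent.S12P.VeluAn91.Match
import Fermat.Agent.S12P.VeluQ51.Delta

set_option autoImplicit false
set_option linter.style.haveILetI false

open scoped PeriodPair

noncomputable section

namespace Fermat.Agent.S12P.VeluQ51

open PeriodPair WeierstrassCurve UpperHalfPlane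
open Fermat.Agent.MAZ Fermat.Agent.MAZ.Unif18 Fermat.Agent.MAZ.EF86 Fermat.Agent.X0
open Fermat.Agent.X0.LatticeEis
open scoped WeierstrassCurve.Affine
open Fermat.Agent.S05.Transport Fermat.Agent.S12P.VeluDef51 Fermat.Agent.S12P.VeluC51
open Fermat.Agent.MAZ.ModInv (xco yco xco_some yco_some)

section Main

variable {W : WeierstrassCurve ℂ} {C : VariableChange ℂ} {L L' : PeriodPair}
  (h : curve L = C • W) {p : ℕ} {t₀ : ℂ} (hcyc : IsCyclicSup L L' p t₀)

theorem pointEquiv_add_nsmul (z : ℂ) (k : ℕ) :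
    pointEquiv h (toPoint L z) + k • pointEquiv h (toPoint L t₀) =
      pointEquiv h (toPoint L (z + (k : ℂ) * t₀)) := by
  rw [← map_nsmul, ← map_add, Fermat.Agent.S12P.VeluAn91.toPoint_add_nsmul]

include hcyc in
/-- the abscissa of the image point. -/
theorem veluX_pointEquiv {z : ℂ} (hz : z ∉ L'.lattice) :
    veluX W (pointEquiv h (toPoint L t₀)) p (pointEquiv h (toPoint L z)) =
      (C.u : ℂ) ^ 2 * ℘[L'] z + C.r := by
  unfold veluX
  have hterm : ∀ k ∈ Finset.Ico 1 p,
      xco W (pointEquiv h (toPoint L z) + k • pointEquiv h (toPoint L t₀)) -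
          xco W (k • pointEquiv h (toPoint L t₀)) =
        (C.u : ℂ) ^ 2 * (℘[L] (z + (k : ℂ) * t₀) - ℘[L] ((k : ℂ) * t₀)) := by
    intro k hk
    rw [pointEquiv_add_nsmul,
      xco_pointEquiv_toPoint h (Fermat.Agent.S12P.VeluAn91.add_natCast_mul_notMem hcyc hz k),
      nsmul_eq_pointEquiv_toPoint, xco_pointEquiv_toPoint h (mul_notMem hcyc hk)]
    ring
  rw [Finset.sum_congr rfl hterm, ← Finset.mul_sum,
    xco_pointEquiv_toPoint h (Fermat.Agent.S12P.VeluAn91.notMem_of_notMem_sup hcyc hz),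
    Fermat.Agent.S12P.VeluAn91.wp_velu hcyc z]
  ring

include hcyc in
/-- the ordinate of the image point. -/
theorem veluY_pointEquiv {z : ℂ} (hz : z ∉ L'.lattice) :
    veluY W (pointEquiv h (toPoint L t₀)) p (pointEquiv h (toPoint L z)) =
      (C.u : ℂ) ^ 3 * (℘'[L'] z / 2) + (C.u : ℂ) ^ 2 * C.s * ℘[L'] z + C.t := by
  unfold veluY
  have hterm : ∀ k ∈ Finset.Ico 1 p,
      yco W (pointEquiv h (toPoint L z) + k • pointEquiv h (toPoint L t₀)) -
          yco W (k • pointEquiv h (toPoint L t₀)) =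
        (C.u : ℂ) ^ 3 / 2 * ℘'[L] (z + (k : ℂ) * t₀) - (C.u : ℂ) ^ 3 / 2 * ℘'[L] ((k : ℂ) * t₀) +
          (C.u : ℂ) ^ 2 * C.s * (℘[L] (z + (k : ℂ) * t₀) - ℘[L] ((k : ℂ) * t₀)) := by
    intro k hk
    rw [pointEquiv_add_nsmul,
      yco_pointEquiv_toPoint h (Fermat.Agent.S12P.VeluAn91.add_natCast_mul_notMem hcyc hz k),
      nsmul_eq_pointEquiv_toPoint, yco_pointEquiv_toPoint h (mul_notMem hcyc hk)]
    ring
  rw [Finset.sum_congr rfl hterm, Finset.sum_add_distrib, Finset.sum_sub_distrib,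
    ← Finset.mul_sum, ← Finset.mul_sum, ← Finset.mul_sum, sum_dwp_eq_zero hcyc,
    yco_pointEquiv_toPoint h (Fermat.Agent.S12P.VeluAn91.notMem_of_notMem_sup hcyc hz),
    Fermat.Agent.S12P.VeluAn91.wp_velu hcyc z, Fermat.Agent.S12P.VeluAn91.dwp_velu hcyc z]
  ring

include hcyc in
/-- **The image point**: for `z ∉ L'` with `p z ∈ L`, `(veluX, veluY)(R)` is a nonsingular point of
order `p` on Velu's curve. -/
theorem exists_image_point (hp : p.Prime) {z : ℂ} (hz : z ∉ L'.lattice)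
    (hpz : (p : ℂ) * z ∈ L.lattice) :
    ∃ hns : (veluCurve W (pointEquiv h (toPoint L t₀)) p).toAffine.Nonsingular
        (veluX W (pointEquiv h (toPoint L t₀)) p (pointEquiv h (toPoint L z)))
        (veluY W (pointEquiv h (toPoint L t₀)) p (pointEquiv h (toPoint L z))),
      addOrderOf (Affine.Point.some _ _ hns) = p := by
  have h' : curve L' = C • veluCurve W (pointEquiv h (toPoint L t₀)) p :=
    curve_sup_eq h hcyc hp (lattice_eq_sup hcyc)
  have hx := xco_pointEquiv_toPoint h' hz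
  have hy := yco_pointEquiv_toPoint h' hz
  rw [← veluX_pointEquiv h hcyc hz] at hx
  rw [← veluY_pointEquiv h hcyc hz] at hy
  -- the point `pointEquiv h' (toPoint L' z)` is affine
  have hne : pointEquiv h' (toPoint L' z) ≠ 0 := pointEquiv_toPoint_ne_zero h' hz
  obtain ⟨x, y, hns, hP⟩ : ∃ (x y : ℂ) (hns : (veluCurve W (pointEquiv h (toPoint L t₀)) p).toAffine.Nonsingular x y),
      pointEquiv h' (toPoint L' z) = Affine.Point.some x y hns := by
    rcases hP : pointEquiv h' (toPoint L' z) with _ | ⟨x, y, hns⟩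
    · exact absurd hP hne
    · exact ⟨x, y, hns, rfl⟩
  rw [hP, xco_some] at hx
  rw [hP, yco_some] at hy
  subst hx
  subst hy
  refine ⟨hns, ?_⟩
  rw [← hP]
  haveI : Fact p.Prime := ⟨hp⟩
  refine addOrderOf_eq_prime ?_ hne
  rw [← map_nsmul, Fermat.Agent.S12P.VeluAn91.nsmul_toPoint, toPoint_of_mem L' (hcyc.le hpz),
    map_zero]

end Main

/-- **VELU over `ℂ`, points.** -/
theorem velu_C_points (W : WeierstrassCurve ℂ) [W.IsElliptic] {p : ℕ} (hp : p.Prime)
    (Q : W.toAffine.Point) (hQ : addOrderOf Q = p) (R : W.toAffine.Point) (hR : p • R = 0)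
    (hRQ : R ∉ AddSubgroup.zmultiples Q) :
    ∃ hns : (veluCurve W Q p).toAffine.Nonsingular (veluX W Q p R) (veluY W Q p R),
      addOrderOf (Affine.Point.some _ _ hns) = p := by
  obtain ⟨τ, u, hu, C, h, -, hpt⟩ := exists_tau W hp Q hQ
  have hcyc := isCyclicSup_std hp τ hu
  subst hpt
  set L := scalePair u hu (pairOfUHP τ) with hL
  obtain ⟨z, hz⟩ := toPoint_surjective L ((pointEquiv h).symm R)
  have hRz : R = pointEquiv h (toPoint L z) := by rw [hz, AddEquiv.apply_symm_apply]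
  subst hRz
  have hzL' : z ∉ (scalePair (u / p) (div_ne_zero hu (Nat.cast_ne_zero.mpr hp.ne_zero))
      (pairOfUHP (natMulUHP p hp.pos τ))).lattice := by
    intro hmem
    apply hRQ
    obtain ⟨k, -, hk⟩ := hcyc.cover z hmem
    have e : z = (z - (k : ℂ) * (u / p)) + (k : ℂ) * (u / p) := by ring
    rw [e, toPoint_add, toPoint_of_mem L hk, zero_add, ← nsmul_eq_pointEquiv_toPoint]
    exact AddSubgroup.nsmul_mem_zmultiples _ k
  have hpz : (p : ℂ) * z ∈ L.lattice := by
    rw [← toPoint_eq_zero_iff, ← Fermat.Agent.S12P.VeluAn91.nsmul_toPoint]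
    have : pointEquiv h (p • toPoint L z) = 0 := by rw [map_nsmul, hR]
    exact (AddEquiv.map_eq_zero_iff (pointEquiv h)).mp this
  exact exists_image_point h hcyc hp hzL' hpz

/-- **VELU over `ℚbar`, points**: for `V/ℚ` elliptic, `Q ∈ V(ℚbar)` of prime order `p` and a
`p`-torsion point `R ∉ ⟨Q⟩`, `(veluX, veluY)(R)` is a nonsingular point of order `p` of Velu's curve. -/
theorem velu_Q_points (V : WeierstrassCurve ℚ) (hΔ : V.Δ ≠ 0) {p : ℕ} (hp : p.Prime)
    (Q : (V⁄Kbar).Point) (hQ : addOrderOf Q = p) (R : (V⁄Kbar).Point) (hR : p • R = 0)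
    (hRQ : R ∉ AddSubgroup.zmultiples Q) :
    ∃ hns : (veluCurve (V.baseChange Kbar) Q p).toAffine.Nonsingular
        (veluX (V.baseChange Kbar) Q p R) (veluY (V.baseChange Kbar) Q p R),
      addOrderOf (Affine.Point.some _ _ hns) = p := by
  haveI := isElliptic_baseChange_C V hΔ
  have hQC : addOrderOf (pointToC V Q) = p := by rw [addOrderOf_pointToC, hQ]
  have hRC : p • pointToC V R = 0 := by rw [← map_nsmul, hR, map_zero]
  have hRQC : pointToC V R ∉ AddSubgroup.zmultiples (pointToC V Q) := by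
    intro hmem
    apply hRQ
    obtain ⟨j, hj⟩ := AddSubgroup.mem_zmultiples_iff.mp hmem
    rw [← map_zsmul] at hj
    exact AddSubgroup.mem_zmultiples_iff.mpr ⟨j, pointToC_injective V hj⟩
  exact exists_point_of_C V Q R p
    (velu_C_points (V.baseChange ℂ) hp (pointToC V Q) hQC (pointToC V R) hRC hRQC)

end Fermat.Agent.S12P.VeluQ51
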